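/-
Fermat/Agent/T1B/Gauss95/Normalisable.lean  (helper95, programme T1B, brick F8' slice S3 GAUSS-NORM)

GAUSS NORMALISATION of modular functions at an arbitrary place of `ℚ̄`.

For a valuation subring `A` of a field `K`, a Laurent series `f ∈ K((q))` is `Normalisable A` if
`c · f · s = a` for a nonzero constant `c` and `a, s ∈ A((q))` of NONZERO reduction (so `c · f` is a
unit of the Gauss valuation ring of `Frac A((q))`).  For a non-discrete `A` (e.g. `A ⊂ ℚ̄`) this is
a real condition: the infimum of the valuations of the coefficients need not be attained.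

* `normalisable_of_isUnif` : `O` with a uniformiser, `f ∈ Frac O((q))`, `f ≠ 0` ⟹ normalisable;
* `normalisable_of_forall_mem` : trivial valuation ring ⟹ every `f ≠ 0` is normalisable;
* `Normalisable.map` : transport along a local inclusion of valuation rings;
* `eq_top_or_exists_liesOverPrime` : a valuation subring of `ℚ̄` is `⊤` or lies over a prime;
* **(G1)** `normalisable_of_mem_Fbar` : every nonzero `f ∈ ℚ̄·F_N` (ANY level `N`, ANY valuation
  subring `A` of `ℚ̄`; `p ∣ N` allowed) is Gauss-normalisable at `A`.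
-/
import Mathlib
import Fermat.Agent.RED.Interface4
import Fermat.Agent.RED.PUR.GaussGen8
import Fermat.Agent.RED.PUR.GaussBridge10
import Fermat.Agent.RED.DESC.CoeffDescent1
import Fermat.Agent.RED.DESC.NumberFieldDVR27

set_option autoImplicit false
set_option linter.unusedSectionVars false
set_option linter.style.haveILetI false

noncomputable section

open HahnSeries ModularCurve

namespace Fermat.Agent.T1B.Gauss95

open Fermat.Agent.RED.Interface4 Fermat.Agent.RED.PUR.GaussGen8

section Generic

variable {K : Type*} [Field K]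

/-- `f ∈ K((q))` is **Gauss-normalisable** at the valuation subring `A`: `c · f · s = a` with
`c ≠ 0` constant and `a, s ∈ A((q))` of nonzero reduction. -/
def Normalisable (A : ValuationSubring K) (f : LaurentSeries K) : Prop :=
  ∃ (c : K) (a s : LaurentSeries ↥A), c ≠ 0 ∧
    coeffMap (IsLocalRing.residue ↥A) a ≠ 0 ∧ coeffMap (IsLocalRing.residue ↥A) s ≠ 0 ∧
    HahnSeries.C c * f * coeffMap A.subtype s = coeffMap A.subtype a

theorem Normalisable.ne_zero {A : ValuationSubring K} {f : LaurentSeries K}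
    (h : Normalisable A f) : f ≠ 0 := by
  obtain ⟨c, a, s, -, ha, -, h⟩ := h
  rintro rfl
  rw [mul_zero, zero_mul] at h
  apply ha
  have : a = 0 := (embK_eq_zero_iff A a).mp h.symm
  rw [this, map_zero]

/-- A nonzero element of `Frac O((q))` is normalisable when `O` has a uniformiser. -/
theorem normalisable_of_isUnif {O : ValuationSubring K} {π : ↥O} (hπ : IsUnif O π)
    {f : LaurentSeries K} (hf : f ∈ fracField O) (h0 : f ≠ 0) : Normalisable O f := by
  obtain ⟨i, j, u, hu, h⟩ := exists_unit_rep hπ hf h0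
  obtain ⟨a, s, hrep⟩ := u.2
  have hπK : ((π : ↥O) : K) ≠ 0 := fun h => hπ.ne_zero (Subtype.ext h)
  have hred : gaussRed O u = redL O a / redL O s := gaussRed_eq O (f := u) hrep
  have ha : redL O a ≠ 0 := by
    intro h0'
    apply hu
    rw [hred, h0', zero_div]
  refine ⟨((π : ↥O) : K) ^ j / ((π : ↥O) : K) ^ i, a, s,
    div_ne_zero (pow_ne_zero _ hπK) (pow_ne_zero _ hπK), ha, hrep.1, ?_⟩
  have hC : (HahnSeries.C (((π : ↥O) : K) ^ j / ((π : ↥O) : K) ^ i) : LaurentSeries K) =
      piK π ^ j / piK π ^ i := by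
    rw [map_div₀, map_pow, map_pow]
  have hpi : (piK π : LaurentSeries K) ^ i ≠ 0 := pow_ne_zero _ (piK_ne_zero hπ)
  have hfu : HahnSeries.C (((π : ↥O) : K) ^ j / ((π : ↥O) : K) ^ i) * f = (u : LaurentSeries K) := by
    rw [hC, div_mul_eq_mul_div, mul_comm _ f, h]
    field_simp
  rw [hfu]
  exact hrep.2

/-- Over a trivial valuation ring every nonzero Laurent series is normalisable. -/
theorem normalisable_of_forall_mem {O : ValuationSubring K} (hO : ∀ x : K, x ∈ O)
    {f : LaurentSeries K} (h0 : f ≠ 0) : Normalisable O f := by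
  let φ : K →+* ↥O :=
    { toFun := fun x => ⟨x, hO x⟩
      map_one' := rfl
      map_mul' := fun _ _ => rfl
      map_zero' := rfl
      map_add' := fun _ _ => rfl }
  have hφ : O.subtype.comp φ = RingHom.id K := RingHom.ext fun _ => rfl
  have hres : Function.Injective ((IsLocalRing.residue ↥O).comp φ) :=
    ((IsLocalRing.residue ↥O).comp φ).injective
  refine ⟨1, coeffMap φ f, 1, one_ne_zero, ?_, ?_, ?_⟩
  · rw [coeffMap_coeffMap]
    intro h
    apply h0
    apply Fermat.Agent.RED.DESC.CoeffDescent1.coeffMap_injective_of_injective _ hres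
    rw [h, map_zero]
  · rw [map_one]; exact one_ne_zero
  · simp only [map_one, one_mul, mul_one]
    rw [coeffMap_coeffMap, hφ]
    ext n
    rfl

/-- Transport of normalisability along a local inclusion of valuation rings
`O = A ∩ K ⊂ A ⊂ L`. -/
theorem Normalisable.map {L : Type*} [Field L] (φ : K →+* L) {A : ValuationSubring L}
    {f : LaurentSeries K} (h : Normalisable (A.comap φ) f) : Normalisable A (coeffMap φ f) := by
  obtain ⟨c, a, s, hc, ha, hs, h⟩ := h
  let ι : ↥(A.comap φ) →+* ↥A := φ.restrict (A.comap φ) A (fun x hx => hx)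
  haveI : IsLocalHom ι := by
    constructor
    intro x hx
    obtain ⟨y, hy⟩ := isUnit_iff_exists_inv.mp hx
    have h1 : φ (x : K) * (y : L) = 1 := congrArg (fun z : ↥A => (z : L)) hy
    have hx0 : (x : K) ≠ 0 := by
      intro h0
      rw [h0, map_zero, zero_mul] at h1
      exact zero_ne_one h1
    have h2 : φ ((x : K)⁻¹) = (y : L) := by
      rw [map_inv₀]
      exact inv_eq_of_mul_eq_one_right h1
    have h4 : (x : K)⁻¹ ∈ A.comap φ := by
      rw [ValuationSubring.mem_comap, h2]; exact y.2
    refine isUnit_iff_exists_inv.mpr ⟨⟨(x : K)⁻¹, h4⟩, ?_⟩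
    apply Subtype.ext
    show (x : K) * (x : K)⁻¹ = 1
    exact mul_inv_cancel₀ hx0
  let ρ : IsLocalRing.ResidueField ↥(A.comap φ) →+* IsLocalRing.ResidueField ↥A :=
    IsLocalRing.ResidueField.map ι
  have hρ : (IsLocalRing.residue ↥A).comp ι = ρ.comp (IsLocalRing.residue ↥(A.comap φ)) :=
    RingHom.ext fun x => (IsLocalRing.ResidueField.map_residue ι x).symm
  have hsub : A.subtype.comp ι = φ.comp (A.comap φ).subtype := RingHom.ext fun _ => rfl
  have hinj : Function.Injective (coeffMap ρ) :=
    Fermat.Agent.RED.DESC.CoeffDescent1.coeffMap_injective_of_injective ρ ρ.injective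
  refine ⟨φ c, coeffMap ι a, coeffMap ι s, (map_ne_zero φ).mpr hc, ?_, ?_, ?_⟩
  · rw [coeffMap_coeffMap, hρ, ← coeffMap_coeffMap]
    exact fun h0 => ha (hinj (by rw [h0, map_zero]))
  · rw [coeffMap_coeffMap, hρ, ← coeffMap_coeffMap]
    exact fun h0 => hs (hinj (by rw [h0, map_zero]))
  · rw [coeffMap_coeffMap, coeffMap_coeffMap, hsub, ← coeffMap_coeffMap, ← coeffMap_coeffMap, ← h,
      map_mul, map_mul]
    congr 2
    exact (Fermat.Agent.RED.PUR.GaussGen8.coeffMap_C φ c).symm

end Generic

section Qbar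

open Fermat.Agent.RED.DESC.NumberFieldDVR27 Fermat.Agent.RED.DESC.CoeffDescent1

/-- A valuation subring of `ℚ̄` is everything, or lies over a prime number. -/
theorem forall_mem_or_exists_liesOverPrime (A : ValuationSubring Qbar) :
    (∀ x : Qbar, x ∈ A) ∨ ∃ ℓ : ℕ, ℓ.Prime ∧ A.LiesOverPrime ℓ := by
  by_cases h : ∃ ℓ : ℕ, ℓ.Prime ∧ A.LiesOverPrime ℓ
  · exact Or.inr h
  left
  push_neg at h
  -- every nonzero natural number is a unit of `A`
  have hnat : ∀ n : ℕ, n ≠ 0 → ((n : Qbar))⁻¹ ∈ A := by
    intro n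
    induction n using Nat.recOnMul with
    | zero => intro h0; exact absurd rfl h0
    | one => intro _; simp [A.one_mem]
    | prime p hp =>
        intro _
        have h1 := h p hp
        unfold ValuationSubring.LiesOverPrime at h1
        rw [ValuationSubring.mem_nonunits_iff_or, not_or, not_not] at h1
        exact h1.2
    | mul a b ha hb =>
        intro hab
        have ha0 : a ≠ 0 := fun h0 => hab (by rw [h0, zero_mul])
        have hb0 : b ≠ 0 := fun h0 => hab (by rw [h0, mul_zero])
        have : (((a * b : ℕ) : Qbar))⁻¹ = ((a : Qbar))⁻¹ * ((b : Qbar))⁻¹ := by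
          push_cast; rw [mul_inv]
        rw [this]
        exact A.mul_mem _ _ (ha ha0) (hb hb0)
  have hint : ∀ n : ℤ, n ≠ 0 → ((n : Qbar))⁻¹ ∈ A := by
    intro n hn
    obtain ⟨m, rfl | rfl⟩ := Int.eq_nat_or_neg n
    · have hm : m ≠ 0 := fun h0 => hn (by rw [h0]; rfl)
      have := hnat m hm
      push_cast
      exact this
    · have hm : m ≠ 0 := fun h0 => hn (by rw [h0]; rfl)
      have := A.neg_mem _ (hnat m hm)
      push_cast
      rw [inv_neg]
      exact this
  intro x
  haveI : Algebra.IsAlgebraic ℚ Qbar := isAlgebraic_Qbar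
  have hx : IsAlgebraic ℤ x :=
    (IsFractionRing.isAlgebraic_iff ℤ ℚ Qbar).mpr (Algebra.IsAlgebraic.isAlgebraic (R := ℚ) x)
  obtain ⟨y, hy0, hy⟩ := hx.exists_integral_multiple
  have h1 : y • x ∈ A := mem_of_isIntegral A hy
  have h2 : x = ((y : Qbar))⁻¹ * (y • x) := by
    have hyQ : (y : Qbar) ≠ 0 := by exact_mod_cast hy0
    rw [zsmul_eq_mul, ← mul_assoc, inv_mul_cancel₀ hyQ, one_mul]
  rw [h2]
  exact A.mul_mem _ _ (hint y hy0) h1

/-- **(G1) Gauss normalisation of modular functions.**  Every nonzero `f ∈ ℚ̄·F_N` is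
Gauss-normalisable at every valuation subring `A` of `ℚ̄` (no condition relating `A` and `N`). -/
theorem normalisable_of_mem_Fbar (A : ValuationSubring Qbar) (N : ℕ) [NeZero N]
    {f : LaurentSeries Qbar} (hf : f ∈ modularFunctionFieldBar N) (h0 : f ≠ 0) :
    Normalisable A f := by
  rcases forall_mem_or_exists_liesOverPrime A with hA | ⟨ℓ, hℓ, hA⟩
  · exact normalisable_of_forall_mem hA h0
  haveI : Algebra.IsAlgebraic ℚ Qbar := isAlgebraic_Qbar
  obtain ⟨K, -, hfin, f', hf', rfl⟩ :=
    exists_finite_descent (F₀ := modularFunctionFieldFull N) (⊥ : IntermediateField ℚ Qbar) hf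
  haveI := hfin
  have h0' : f' ≠ 0 := by
    rintro rfl
    exact h0 (map_zero _)
  have hdvr : IsDiscreteValuationRing ↥(AK A K) := isDiscreteValuationRing_AK A K hℓ.ne_zero hA
  obtain ⟨ϖ, hϖ⟩ := IsDiscreteValuationRing.exists_irreducible ↥(AK A K)
  have hu : IsUnif (AK A K) ϖ := isUnif_of_irreducible (AK A K) hϖ
  have hfrac : f' ∈ fracField (AK A K) :=
    Fermat.Agent.RED.PUR.GaussBridge10.FK_le_fracField A K N hf'
  exact (normalisable_of_isUnif hu hfrac h0').map (algebraMap K Qbar)

end Qbar

end Fermat.Agent.T1B.Gauss95
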