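/-
Fermat/Agent/T1B/Gauss95/Main.lean  (helper95, programme T1B, brick F8' slice S3 GAUSS-NORM)

The deliverables of slice S3 in the vocabulary of `T1B/Hecke3/Iface` (helper3):

* **(G1)** `normalisable_of_mem_Fbar'` : every nonzero `f ∈ ℚ̄·F_N` is `Hecke3.Normalisable A f`,
  for EVERY valuation subring `A` of `ℚ̄` and EVERY level `N`;
* **(G2)** `normalisable_tauS`, `normalisable_frickeBar` : the same for the Fricke side;
* **(G3)** Galois: for `g` in the decomposition group of `A` the coefficientwise action preserves
  normalised representations (`isNormRep_galois`), the reductions are conjugate by the induced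
  automorphism `psiRes A g` of the residue field, and `dl A (g f) = psiRes g (dl A f)` (`dl_galois`);
  `dl_arithmeticRingAut` is the modular-function form.
-/
import Mathlib
import Fermat.Agent.T1B.Gauss95.Normalisable
import Fermat.Agent.T1B.Hecke3.DlAbs
import Fermat.Agent.ES.N34.FrickeFK8
import Fermat.Agent.ES.RED.GaloisRed21

set_option autoImplicit false
set_option linter.unusedSectionVars false

noncomputable section

open HahnSeries ModularCurve

namespace Fermat.Agent.T1B.Gauss95

open Fermat.Agent.RED.Interface4 Fermat.Agent.T1B.Hecke3 Fermat.Agent.ES.RED.GaloisRed21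
open Fermat.Agent.IG.PR.Theta20

/-! ### Bridge to `Hecke3` -/

theorem normalisable_iff {K : Type*} [Field K] (A : ValuationSubring K) (f : LaurentSeries K) :
    Gauss95.Normalisable A f ↔ Hecke3.Normalisable A f :=
  Iff.rfl

/-- **(G1)** in `Hecke3` vocabulary. -/
theorem normalisable_of_mem_Fbar' (A : ValuationSubring Qbar) (N : ℕ) [NeZero N]
    {f : LaurentSeries Qbar} (hf : f ∈ modularFunctionFieldBar N) (h0 : f ≠ 0) :
    Hecke3.Normalisable A f :=
  (normalisable_iff A f).mp (normalisable_of_mem_Fbar A N hf h0)

/-- (G1) for elements of the function field. -/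
theorem normalisable_coe (A : ValuationSubring Qbar) (N : ℕ) [NeZero N]
    (f : ↥(modularFunctionFieldBar N)) (h0 : f ≠ 0) :
    Hecke3.Normalisable A (f : LaurentSeries Qbar) :=
  normalisable_of_mem_Fbar' A N f.2 (fun h => h0 (Subtype.ext h))

/-! ### (G2) the Fricke side -/

open Fermat.Agent.ES.N34.FrickeFK8 Fermat.Agent.RED.LVL.FrickeExp17 Fermat.Agent.X0.Analytic in
/-- **(G2)** the Fricke expansion of a nonzero modular function is normalisable. -/
theorem normalisable_frickeBar (A : ValuationSubring Qbar) (N : ℕ) [NeZero N]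
    (f : ↥(modularFunctionFieldBar N)) (h0 : f ≠ 0) :
    Hecke3.Normalisable A ((frickeBar N f : ↥(modularFunctionFieldBar N)) : LaurentSeries Qbar) :=
  normalisable_coe A N (frickeBar N f)
    (fun h => h0 ((frickeBar N).toRingHom.injective (h.trans (map_zero _).symm)))

open Fermat.Agent.ES.N34.FrickeFK8 Fermat.Agent.RED.LVL.FrickeExp17 Fermat.Agent.X0.Analytic in
/-- **(G2)**, `tauS` form. -/
theorem normalisable_tauS (A : ValuationSubring Qbar) (N : ℕ) [NeZero N]
    (f : ↥(modularFunctionFieldBar N)) (h0 : f ≠ 0) :
    Hecke3.Normalisable A (tauS N f) :=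
  normalisable_frickeBar A N f h0

/-! ### (G3) the decomposition group -/

section Galois

variable {K₀ L : Type*} [Field K₀] [Field L] [Algebra K₀ L] {A : ValuationSubring L}

/-- `dlog` commutes with coefficient maps of fields. -/
theorem dlog_coeffMap {k k' : Type*} [Field k] [Field k'] (φ : k →+* k') (g : LaurentSeries k) :
    dlog (coeffMap φ g) = coeffMap φ (dlog g) := by
  unfold dlog
  rw [map_mul, map_inv₀, coeffMap_theta]

/-- the coefficientwise action of `g ∈ D_A` on `L((q))`. -/
abbrev galL (g : A.decompositionSubgroup K₀) : LaurentSeries L →+* LaurentSeries L :=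
  coeffMap (((g : L ≃ₐ[K₀] L) : L ≃+* L) : L →+* L)

/-- the coefficientwise action of `g ∈ D_A` on `A((q))`. -/
abbrev galA (g : A.decompositionSubgroup K₀) : LaurentSeries ↥A →+* LaurentSeries ↥A :=
  coeffMap (sigmaA A g)

/-- the coefficientwise action of `g ∈ D_A` on `κ((q))`. -/
abbrev galBar (g : A.decompositionSubgroup K₀) :
    LaurentSeries (Kap A) →+* LaurentSeries (Kap A) :=
  coeffMap ((psiRes A g : Kap A ≃+* Kap A) : Kap A →+* Kap A)

theorem embA_galA (g : A.decompositionSubgroup K₀) (x : LaurentSeries ↥A) :
    embA A (galA g x) = galL g (embA A x) :=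
  coeffMap_subtype_sigmaA A g x

theorem redA_galA (g : A.decompositionSubgroup K₀) (x : LaurentSeries ↥A) :
    redA A (galA g x) = galBar g (redA A x) :=
  coeffMap_residue_sigmaA A g x

theorem galBar_injective (g : A.decompositionSubgroup K₀) : Function.Injective (galBar g) :=
  coeffMap_injective' (psiRes A g).injective

/-- **(G3)** normalised representations are transported by the decomposition group. -/
theorem isNormRep_galois (g : A.decompositionSubgroup K₀) {f : LaurentSeries L} {c : L}
    {a s : LaurentSeries ↥A} (h : IsNormRep A f c a s) :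
    IsNormRep A (galL g f) ((g : L ≃ₐ[K₀] L) c) (galA g a) (galA g s) := by
  obtain ⟨hc, ha, hs, he⟩ := h
  refine ⟨(map_ne_zero _).mpr hc, ?_, ?_, ?_⟩
  · rw [redA_galA]; exact fun h0 => ha (galBar_injective g (by rw [h0, map_zero]))
  · rw [redA_galA]; exact fun h0 => hs (galBar_injective g (by rw [h0, map_zero]))
  · rw [embA_galA, embA_galA, ← he, map_mul, map_mul]
    congr 2
    exact (coeffMap_C' (((g : L ≃ₐ[K₀] L) : L ≃+* L) : L →+* L) c).symm

theorem normalisable_galois (g : A.decompositionSubgroup K₀) {f : LaurentSeries L}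
    (h : Hecke3.Normalisable A f) : Hecke3.Normalisable A (galL g f) := by
  obtain ⟨c, a, s, h⟩ := h
  exact ⟨_, _, _, isNormRep_galois g h⟩

/-- **(G3)** `dl` is equivariant for the decomposition group: the reduced `q`-dlogs are conjugate
by the induced automorphism of the residue field. -/
theorem dl_galois (g : A.decompositionSubgroup K₀) {f : LaurentSeries L}
    (hf : Hecke3.Normalisable A f) : dl A (galL g f) = galBar g (dl A f) := by
  obtain ⟨c, a, s, h⟩ := hf
  rw [dl_eq_of_rep (isNormRep_galois g h), dl_eq_of_rep h, redA_galA, redA_galA, dlog_coeffMap,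
    dlog_coeffMap, map_sub]

end Galois

/-! ### (G3) for modular functions -/

section Modular

variable (A : ValuationSubring Qbar) (F₀ : IntermediateField ℚ (LaurentSeries ℚ))

/-- `dl` of the arithmetic Galois action on `ℚ̄·F₀`, for `g` in the decomposition group. -/
theorem dl_arithmeticRingAut (g : A.decompositionSubgroup ℚ)
    (f : ↥(laurentBaseChange Qbar F₀)) (hf : Hecke3.Normalisable A (f : LaurentSeries Qbar)) :
    Hecke3.Normalisable A
        ((arithmeticRingAut F₀ (g : Qbar ≃ₐ[ℚ] Qbar) f : ↥(laurentBaseChange Qbar F₀)) :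
          LaurentSeries Qbar) ∧
      dl A ((arithmeticRingAut F₀ (g : Qbar ≃ₐ[ℚ] Qbar) f : ↥(laurentBaseChange Qbar F₀)) :
          LaurentSeries Qbar) = galBar g (dl A (f : LaurentSeries Qbar)) :=
  ⟨normalisable_galois g hf, dl_galois g hf⟩

end Modular

end Fermat.Agent.T1B.Gauss95
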